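import Fermat.Agent.S27.Grp.Spec

/-!
# Row S27, block GRP, leaf ALG-INV (subtask 690, helper81)

`tensInv : Grp.Stmt.TensInv` : every gluing datum `G` has an inverse, namely the dual datum
`(N₀ᵛ, N₁ᵛ, N₀₁ᵛ)` with restriction maps `IsBaseChange.toDual`.

Generic core (Mathlib only): `isBaseChange_toDual_of_invertible` — for an invertible module `V`
and a base change `j : V → W` along `R → A`, the map `ibc.toDual : Vᵛ → Wᵛ` is a base change
(Mathlib has this only for finite free modules).
-/

set_option autoImplicit false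
universe u
open scoped TensorProduct

namespace Fermat.Agent.S27.H81

open Module

section Core

variable {R : Type*} [CommRing R] {V : Type*} [AddCommGroup V] [Module R V]

/-- In an invertible module, `φ x • s = φ s • x`. -/
theorem dual_smul_comm_of_invertible [Module.Invertible R V] (φ : Module.Dual R V) (x s : V) :
    φ x • s = φ s • x := by
  have h := congrArg (TensorProduct.lift ((LinearMap.lsmul R V).comp φ))
    (Module.Invertible.tmul_comm (R := R) (m₁ := x) (m₂ := s))
  simpa using h

variable {A : Type*} [CommRing A] [Algebra R A] {W : Type*} [AddCommGroup W] [Module R W]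
  [Module A W] [IsScalarTower R A W]

/-- The canonical `A`-linear map `A ⊗[R] Vᵛ → Wᵛ`. -/
noncomputable def dualBC {j : V →ₗ[R] W} (ibc : IsBaseChange A j) :
    A ⊗[R] Module.Dual R V →ₗ[A] Module.Dual A W :=
  (TensorProduct.isBaseChange R (Module.Dual R V) A).lift ibc.toDual

theorem dualBC_tmul {j : V →ₗ[R] W} (ibc : IsBaseChange A j) (a : A) (φ : Module.Dual R V) :
    dualBC ibc (a ⊗ₜ[R] φ) = a • ibc.toDual φ := by
  have h1 : (a ⊗ₜ[R] φ : A ⊗[R] Module.Dual R V) = a • (TensorProduct.mk R A _ 1 φ) := by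
    simp [TensorProduct.smul_tmul']
  rw [h1, map_smul, dualBC, IsBaseChange.lift_eq]

theorem dualBC_surjective [Module.Invertible R V] {j : V →ₗ[R] W} (ibc : IsBaseChange A j) :
    Function.Surjective (dualBC ibc) := by
  intro ψ
  obtain ⟨t, ht⟩ := (Module.Invertible.bijective (R := R) (M := V)).2 1
  -- Θ : φ ⊗ s ↦ ψ (j s) ⊗ φ
  let Θ : Module.Dual R V ⊗[R] V →ₗ[R] A ⊗[R] Module.Dual R V :=
    TensorProduct.lift
      (LinearMap.mk₂ R (fun (φ : Module.Dual R V) (s : V) => ψ (j s) ⊗ₜ[R] φ)
        (fun φ φ' s => by simp [TensorProduct.tmul_add])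
        (fun c φ s => by simp [TensorProduct.tmul_smul])
        (fun φ s s' => by simp [TensorProduct.add_tmul])
        (fun c φ s => by
          simp only [map_smul]
          rw [LinearMap.map_smul_of_tower, TensorProduct.smul_tmul']))
  have key : ∀ t : Module.Dual R V ⊗[R] V,
      dualBC ibc (Θ t) = (contractLeft R V t) • ψ := by
    intro t
    induction t using TensorProduct.induction_on with
    | zero => simp
    | add x y hx hy => simp [hx, hy, add_smul]
    | tmul φ s =>
      simp only [Θ, TensorProduct.lift.tmul, LinearMap.mk₂_apply, dualBC_tmul,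
        contractLeft_apply]
      apply ibc.algHom_ext
      intro x
      simp only [LinearMap.smul_apply, IsBaseChange.toDual_comp_apply, smul_eq_mul]
      have e1 : ψ (j s) * (algebraMap R A) (φ x) = ψ (j (φ x • s)) := by
        rw [map_smul, LinearMap.map_smul_of_tower, Algebra.smul_def, mul_comm]
      have e2 : φ s • ψ (j x) = ψ (j (φ s • x)) := by
        rw [map_smul, LinearMap.map_smul_of_tower]
      rw [e1, e2, dual_smul_comm_of_invertible]
  exact ⟨Θ t, by rw [key, ht, one_smul]⟩

/-- The dual of an invertible module commutes with base change. -/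
theorem isBaseChange_toDual_of_invertible [Module.Invertible R V] {j : V →ₗ[R] W}
    (ibc : IsBaseChange A j) : IsBaseChange A ibc.toDual := by
  have : Module.Invertible A W := Module.Invertible.congr ibc.equiv
  have hb : Function.Bijective (dualBC ibc) :=
    Module.Invertible.bijective_of_surjective (dualBC_surjective ibc)
  refine IsBaseChange.of_equiv (LinearEquiv.ofBijective (dualBC ibc) hb) fun φ => ?_
  simp [dualBC_tmul]

end Core

open Fermat.Agent.S25 Fermat.Agent.S27

section Dual

variable {A R₀ R₁ R₀₁ : Type u} [CommRing A] [CommRing R₀] [CommRing R₁]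
    [CommRing R₀₁] [Algebra A R₀] [Algebra A R₁] [Algebra A R₀₁] [Algebra R₀ R₀₁]
    [Algebra R₁ R₀₁] [IsScalarTower A R₀ R₀₁] [IsScalarTower A R₁ R₀₁]

/-- The dual gluing datum. -/
noncomputable def dualDatum (G : GlueDatum A R₀ R₁ R₀₁) : GlueDatum A R₀ R₁ R₀₁ :=
  haveI := G.invertible₀
  haveI := G.invertible₁
  { N₀ := Module.Dual R₀ G.N₀
    N₁ := Module.Dual R₁ G.N₁
    N₀₁ := Module.Dual R₀₁ G.N₀₁
    r₀ := G.isBaseChange₀.toDual
    r₁ := G.isBaseChange₁.toDual
    isBaseChange₀ := isBaseChange_toDual_of_invertible G.isBaseChange₀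
    isBaseChange₁ := isBaseChange_toDual_of_invertible G.isBaseChange₁
    invertible₀ := inferInstance
    invertible₁ := inferInstance }

/-- The evaluation maps exhibit the unit datum as the tensor product of the dual datum and
the datum. -/
noncomputable def dualTensorMaps (G : GlueDatum A R₀ R₁ R₀₁) :
    TensorMaps (dualDatum G) G (GlueDatum.unit A R₀ R₁ R₀₁) :=
  haveI := G.invertible₀
  haveI := G.invertible₁
  haveI : Module.Invertible R₀₁ G.N₀₁ := Module.Invertible.congr G.isBaseChange₀.equiv
  { β₀ := (LinearMap.id : Module.Dual R₀ G.N₀ →ₗ[R₀] Module.Dual R₀ G.N₀)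
    β₁ := (LinearMap.id : Module.Dual R₁ G.N₁ →ₗ[R₁] Module.Dual R₁ G.N₁)
    β₀₁ := (LinearMap.id : Module.Dual R₀₁ G.N₀₁ →ₗ[R₀₁] Module.Dual R₀₁ G.N₀₁)
    comm₀ := fun s s' => G.isBaseChange₀.toDual_comp_apply s s'
    comm₁ := fun s s' => G.isBaseChange₁.toDual_comp_apply s s'
    bijective₀ := Module.Invertible.bijective (R := R₀) (M := G.N₀)
    bijective₁ := Module.Invertible.bijective (R := R₁) (M := G.N₁)
    bijective₀₁ := Module.Invertible.bijective (R := R₀₁) (M := G.N₀₁) }

end Dual

/-- **TENS-INV** (subtask 690): every gluing datum has an inverse (the dual datum). -/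
theorem tensInv : Grp.Stmt.TensInv.{u} := by
  intro A R₀ R₁ R₀₁ _ _ _ _ _ _ _ _ _ _ _ G
  exact ⟨dualDatum G, ⟨dualTensorMaps G⟩⟩

end Fermat.Agent.S27.H81
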